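/-
S27 / GRP, sub-leaf TENSOR-DEG (helper325): pure algebra.  Mathlib only.

* `nonempty_tensor_invertible_equiv` : `Q ⊗[R] N ≃ₗ[R] Q` for `Q` finite-dimensional over a
  field `K`, `R` a `K`-algebra, `N` an invertible `R`-module.
* `cokerMkEquiv` : the cokernel of `n ↦ s ⊗ n : N → M ⊗[R] N` is `(M / R s) ⊗[R] N`.
* `finrank_coker_mk_eq` : for `N` invertible and `M / R s` finite-dimensional over `K`, the
  cokernel of `n ↦ s ⊗ n` has the same dimension as `M / R s`.
-/
import Mathlib

set_option autoImplicit false
set_option linter.style.haveILetI false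

universe u

open scoped TensorProduct

namespace Fermat.Agent.S27.H325

noncomputable section

section Annihilator

variable {K R : Type u} [Field K] [CommRing R] [Algebra K R]
  (Q : Type u) [AddCommGroup Q] [Module R Q] [Module K Q] [IsScalarTower K R Q]

/-- The quotient of `R` by the annihilator of a finite-dimensional module is
finite-dimensional. -/
theorem finite_quotient_annihilator [Module.Finite K Q] :
    Module.Finite K (R ⧸ Module.annihilator R Q) := by
  let φ : R →ₗ[K] Module.End K Q := (Algebra.lsmul K K Q).toLinearMap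
  have hle : (Module.annihilator R Q).restrictScalars K ≤ LinearMap.ker φ := by
    intro r hr
    rw [Submodule.restrictScalars_mem, Module.mem_annihilator] at hr
    rw [LinearMap.mem_ker]
    ext q
    simpa [φ] using hr q
  let ψ : (R ⧸ (Module.annihilator R Q).restrictScalars K) →ₗ[K] Module.End K Q :=
    Submodule.liftQ _ φ hle
  have hψ : Function.Injective ψ := by
    rw [← LinearMap.ker_eq_bot, Submodule.ker_liftQ, eq_bot_iff]
    rintro _ ⟨r, hr, rfl⟩
    have hr' : φ r = 0 := hr
    have hmem : r ∈ (Module.annihilator R Q).restrictScalars K := by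
      rw [Submodule.restrictScalars_mem, Module.mem_annihilator]
      intro q
      have := congrArg (fun f : Module.End K Q => f q) hr'
      simpa [φ] using this
    simpa using hmem
  haveI : Module.Finite K (R ⧸ (Module.annihilator R Q).restrictScalars K) :=
    Module.Finite.of_injective ψ hψ
  exact Module.Finite.equiv
    (Submodule.Quotient.restrictScalarsEquiv K (Module.annihilator R Q))

/-- A module is the tensor product of itself with the quotient by its annihilator. -/
def tensorQuotAnnihilatorEquiv : Q ⊗[R] (R ⧸ Module.annihilator R Q) ≃ₗ[R] Q :=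
  (TensorProduct.tensorQuotEquivQuotSMul Q (Module.annihilator R Q)).trans
    ((Submodule.quotEquivOfEqBot _ (by
      rw [← Submodule.annihilator_top, Submodule.annihilator_smul])))

end Annihilator

section Invertible

variable {K R : Type u} [Field K] [CommRing R] [Algebra K R]

/-- Tensoring a finite-dimensional module with an invertible module does not change it, up
to an `R`-linear isomorphism. -/
theorem nonempty_tensor_invertible_equiv (Q : Type u) [AddCommGroup Q] [Module R Q]
    [Module K Q] [IsScalarTower K R Q] [Module.Finite K Q]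
    (N : Type u) [AddCommGroup N] [Module R N] [Module.Invertible R N] :
    Nonempty (Q ⊗[R] N ≃ₗ[R] Q) := by
  haveI := finite_quotient_annihilator (K := K) (R := R) Q
  set I := Module.annihilator R Q with hI
  have hart : IsArtinianRing (R ⧸ I) := IsArtinianRing.of_finite K (R ⧸ I)
  have hfree : Module.Free (R ⧸ I) ((R ⧸ I) ⊗[R] N) :=
    CommRing.Pic.subsingleton_iff.mp inferInstance ((R ⧸ I) ⊗[R] N) inferInstance
  obtain ⟨e2⟩ := Module.Invertible.free_iff_linearEquiv.mp hfree
  let eQ : Q ⊗[R] (R ⧸ I) ≃ₗ[R] Q := tensorQuotAnnihilatorEquiv Q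
  exact ⟨(TensorProduct.congr eQ.symm (LinearEquiv.refl R N)).trans
    ((TensorProduct.assoc R Q (R ⧸ I) N).trans
      ((TensorProduct.congr (LinearEquiv.refl R Q) (e2.restrictScalars R)).trans eQ))⟩

end Invertible

section Coker

variable {R : Type u} [CommRing R] {M N : Type u} [AddCommGroup M] [Module R M]
  [AddCommGroup N] [Module R N]

/-- The map `n ↦ s ⊗ n`. -/
def mkLeft (s : M) : N →ₗ[R] M ⊗[R] N := TensorProduct.mk R M N s

@[simp] theorem mkLeft_apply (s : M) (n : N) : mkLeft (R := R) s n = s ⊗ₜ[R] n := rfl

theorem mkLeft_eq (s : M) :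
    mkLeft (R := R) (N := N) s =
      ((LinearMap.toSpanSingleton R M s).rTensor N).comp
        (TensorProduct.lid R N).symm.toLinearMap := by
  ext n
  simp [mkLeft]

theorem range_mkLeft (s : M) :
    LinearMap.range (mkLeft (R := R) (N := N) s) =
      LinearMap.range ((LinearMap.toSpanSingleton R M s).rTensor N) := by
  rw [mkLeft_eq, LinearMap.range_comp_of_range_eq_top]
  exact LinearEquiv.range _

/-- The cokernel of `n ↦ s ⊗ n` is `(M / R s) ⊗ N`. -/
def cokerMkEquiv (s : M) :
    ((M ⊗[R] N) ⧸ LinearMap.range (mkLeft (R := R) (N := N) s)) ≃ₗ[R]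
      (M ⧸ LinearMap.range (LinearMap.toSpanSingleton R M s)) ⊗[R] N :=
  (Submodule.quotEquivOfEq _ _ (range_mkLeft s)).trans
    (rTensor.equiv N (LinearMap.exact_map_mkQ_range (LinearMap.toSpanSingleton R M s))
      (Submodule.mkQ_surjective _))

theorem mkLeft_injective [Module.Flat R N] (s : M)
    (hs : Function.Injective (LinearMap.toSpanSingleton R M s)) :
    Function.Injective (mkLeft (R := R) (N := N) s) := by
  rw [mkLeft_eq]
  exact (Module.Flat.rTensor_preserves_injective_linearMap _ hs).comp
    (TensorProduct.lid R N).symm.injective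

end Coker

section Finrank

variable {K R : Type u} [Field K] [CommRing R] [Algebra K R]
  {M N : Type u} [AddCommGroup M] [Module R M] [Module K M] [IsScalarTower K R M]
  [AddCommGroup N] [Module R N] [Module.Invertible R N]

/-- For `N` invertible and `M / R s` finite-dimensional over `K`, the cokernel of
`n ↦ s ⊗ n : N → M ⊗ N` is finite-dimensional of the same dimension. -/
theorem finrank_coker_mk_eq (s : M)
    [Module.Finite K (M ⧸ LinearMap.range (LinearMap.toSpanSingleton R M s))] :
    Module.Finite K ((M ⊗[R] N) ⧸ LinearMap.range (mkLeft (R := R) (N := N) s)) ∧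
      Module.finrank K ((M ⊗[R] N) ⧸ LinearMap.range (mkLeft (R := R) (N := N) s)) =
        Module.finrank K (M ⧸ LinearMap.range (LinearMap.toSpanSingleton R M s)) := by
  obtain ⟨e⟩ := nonempty_tensor_invertible_equiv (K := K) (R := R)
    (M ⧸ LinearMap.range (LinearMap.toSpanSingleton R M s)) N
  let E : ((M ⊗[R] N) ⧸ LinearMap.range (mkLeft (R := R) (N := N) s)) ≃ₗ[K]
      (M ⧸ LinearMap.range (LinearMap.toSpanSingleton R M s)) :=
    ((cokerMkEquiv (R := R) (N := N) s).trans e).restrictScalars K
  exact ⟨Module.Finite.equiv E.symm, E.finrank_eq⟩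

end Finrank

end

end Fermat.Agent.S27.H325
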