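/-
S27 / GRP, sub-leaf TENSOR-DEG (helper325): the degree is additive on tensor products of
gluing data over a field.

* `tensorSection G G' s` : the morphism `G' → G ⊗ G'`, `m ↦ s ⊗ m`, of a section `s ∈ Ȟ⁰(G)`;
* `euler_tensorGD_of_section` : `χ(G ⊗ G') - χ(G') = χ(G) - χ(O)` if `G` has a nonzero section;
* `tensorGD_twistE_isIso` : `G(n) ⊗ G' ≅ (G ⊗ G')(n)`;
* `degree_tensorGD` : `deg (G ⊗ G') = deg G + deg G'`;
* `degree_dualGD` : `deg G^∨ = - deg G`.
-/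
import Fermat.Agent.S25.H565.DegreeD3
import Fermat.Agent.S25.H250.TwistEuler
import Fermat.Agent.S25.H265.GDCDeg
import Fermat.Agent.S25.H325.GDCIso
import Fermat.Agent.S27.H325.TensorDegAlg

set_option autoImplicit false
set_option linter.style.haveILetI false
set_option linter.unusedSectionVars false

universe u

open scoped TensorProduct

namespace Fermat.Agent.S27.H325

open Fermat.Agent.S25 Fermat.Agent.S25.H10

noncomputable section

section General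

variable {A R₀ R₁ R₀₁ : Type u} [CommRing A] [CommRing R₀] [CommRing R₁]
    [CommRing R₀₁] [Algebra A R₀] [Algebra A R₁] [Algebra A R₀₁] [Algebra R₀ R₀₁]
    [Algebra R₁ R₀₁] [IsScalarTower A R₀ R₀₁] [IsScalarTower A R₁ R₀₁]

theorem r₀_eq_r₁_of_mem_H0 (G : GlueDatum A R₀ R₁ R₀₁) (s : G.H0) :
    G.r₀ s.1.1 = G.r₁ s.1.2 := by
  have h0 : G.cech (s.1.1, s.1.2) = 0 := LinearMap.mem_ker.mp s.2
  have h1 : G.r₀ s.1.1 + -(G.r₁ s.1.2) = 0 := h0
  exact eq_neg_iff_add_eq_zero.mpr h1 |>.trans (neg_neg _)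

/-- The morphism `G' → G ⊗ G'`, `m ↦ s ⊗ m`, defined by a section `s` of `G`. -/
def tensorSection (G G' : GlueDatum A R₀ R₁ R₀₁) (s : G.H0) :
    GDHom G' (S25.H325.tensorGD G G') where
  f₀ := mkLeft (R := R₀) (M := G.N₀) (N := G'.N₀) s.1.1
  f₁ := mkLeft (R := R₁) (M := G.N₁) (N := G'.N₁) s.1.2
  f₀₁ := mkLeft (R := R₀₁) (M := G.N₀₁) (N := G'.N₀₁) (G.r₀ s.1.1)
  comm₀ := fun m => by
    show G.r₀ s.1.1 ⊗ₜ[R₀₁] G'.r₀ m =
      S25.H325.tensorRes (S := R₀₁) G.r₀ G'.r₀ (s.1.1 ⊗ₜ[R₀] m)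
    rw [S25.H325.tensorRes_tmul]
  comm₁ := fun m => by
    show G.r₀ s.1.1 ⊗ₜ[R₀₁] G'.r₁ m =
      S25.H325.tensorRes (S := R₀₁) G.r₁ G'.r₁ (s.1.2 ⊗ₜ[R₁] m)
    rw [S25.H325.tensorRes_tmul, r₀_eq_r₁_of_mem_H0]

theorem tensorRes_smul_left {R S : Type*} [CommRing R] [CommRing S] [Algebra R S]
    {M : Type*} [AddCommGroup M] [Module R M] {M' : Type*} [AddCommGroup M'] [Module R M']
    {P : Type*} [AddCommGroup P] [Module R P] [Module S P] [IsScalarTower R S P]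
    {P' : Type*} [AddCommGroup P'] [Module R P'] [Module S P'] [IsScalarTower R S P']
    (u : S) (α β : M →ₗ[R] P) (α' : M' →ₗ[R] P') (hβ : ∀ m, β m = u • α m)
    (s : M ⊗[R] M') :
    S25.H325.tensorRes (S := S) β α' s = u • S25.H325.tensorRes (S := S) α α' s := by
  induction s using TensorProduct.induction_on with
  | zero => simp
  | tmul a b =>
    rw [S25.H325.tensorRes_tmul, S25.H325.tensorRes_tmul, hβ, TensorProduct.smul_tmul']
  | add a b ha hb => rw [map_add, map_add, ha, hb, smul_add]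

/-- `G(u) ⊗ G' ≅ (G ⊗ G')(u)` for the twist by a unit `u`. -/
def tensorGDTwistIso (G G' : GlueDatum A R₀ R₁ R₀₁) (u : R₀₁ˣ) :
    GlueDatum.Iso (S25.H325.tensorGD (gdTwist G u) G') (gdTwist (S25.H325.tensorGD G G') u) where
  e₀ := LinearEquiv.refl R₀ (G.N₀ ⊗[R₀] G'.N₀)
  e₁ := LinearEquiv.refl R₁ (G.N₁ ⊗[R₁] G'.N₁)
  e₀₁ := LinearEquiv.refl R₀₁ (G.N₀₁ ⊗[R₀₁] G'.N₀₁)
  comm₀ := fun _ => rfl
  comm₁ := fun s =>
    tensorRes_smul_left (S := R₀₁) (u : R₀₁) G.r₁ (gdTwist G u).r₁ G'.r₁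
      (fun m => gdTwist_r₁_apply G u m) s

theorem invertible_N₀₁ (G : GlueDatum A R₀ R₁ R₀₁) : Module.Invertible R₀₁ G.N₀₁ :=
  haveI := G.invertible₀
  Module.Invertible.congr G.isBaseChange₀.equiv

end General

section Curve

variable {k : Type u} [Field k] {B₀ B₁ B₀₁ : Type u} [CommRing B₀] [CommRing B₁] [CommRing B₀₁]
  [Algebra k B₀] [Algebra k B₁] [Algebra k B₀₁] [Algebra B₀ B₀₁] [Algebra B₁ B₀₁]
  [IsScalarTower k B₀ B₀₁] [IsScalarTower k B₁ B₀₁]
  {x : B₀} {y : B₁} {e : B₁ →ₐ[k] k}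

theorem tensorGD_twistE_isIso (hxy : algebraMap B₀ B₀₁ x * algebraMap B₁ B₀₁ y = 1)
    {A : Type u} [CommRing A] [Algebra k A] (G G' : CurveGD k B₀ B₁ B₀₁ A) (n : ℤ) :
    GlueDatum.IsIso (S25.H325.tensorGD (twistE x y hxy G n) G')
      (twistE x y hxy (S25.H325.tensorGD G G') n) :=
  ⟨tensorGDTwistIso G G' _⟩

/-- If `G` has a nonzero section, then `χ(G ⊗ G') - χ(G') = χ(G) - χ(O)`. -/
theorem euler_tensorGD_of_section [IsAlgClosed k] (hC : IsCurveChart k B₀ B₁ B₀₁ x y e)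
    {K : Type u} [Field K] [Algebra k K] (G G' : CurveGD k B₀ B₁ B₀₁ K) (s : G.H0)
    (hs : s ≠ 0) :
    (S25.H325.tensorGD G G').euler - G'.euler =
      G.euler - (GlueDatum.unit K (K ⊗[k] B₀) (K ⊗[k] B₁) (K ⊗[k] B₀₁)).euler := by
  haveI := H565.chart_away₀ hC K
  haveI := G'.invertible₀
  haveI := G'.invertible₁
  haveI := invertible_N₀₁ G'
  -- the morphism `σ : O → G`
  have hσ := H565.D.injective_of_ne_zero hC (GDHom.ofSection G s)
    (H565.D.ofSection_ne_zero G s hs)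
  obtain ⟨h₀, h₁⟩ := H565.D.finite_coker_of_injective hC (GDHom.ofSection G s) hσ
  have Eσ := H565.D.euler_eq_of_injective hC (GDHom.ofSection G s) hσ h₀ h₁
  have h₀₁ : Module.Finite K (G.N₀₁ ⧸ LinearMap.range (GDHom.ofSection G s).f₀₁) := by
    haveI : FiniteDimensional K (H565.GlueHom.ofGDHom (GDHom.ofSection G s)).coker₀ :=
      (H565.finite_coker_iff (GDHom.ofSection G s).f₀).2 h₀
    exact (H565.finite_coker_iff (GDHom.ofSection G s).f₀₁).1
      ((H565.GlueHom.ofGDHom (GDHom.ofSection G s)).finrank_coker₀₁_le₀ ((1 : K) ⊗ₜ[k] x)).1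
  -- the morphism `τ : G' → G ⊗ G'`
  have hτ : (tensorSection G G' s).Injective :=
    ⟨mkLeft_injective (R := K ⊗[k] B₀) (N := G'.N₀) s.1.1 hσ.1,
      mkLeft_injective (R := K ⊗[k] B₁) (N := G'.N₁) s.1.2 hσ.2⟩
  haveI : Module.Finite K (G.N₀ ⧸ LinearMap.range
      (LinearMap.toSpanSingleton (K ⊗[k] B₀) G.N₀ s.1.1)) := h₀
  haveI : Module.Finite K (G.N₁ ⧸ LinearMap.range
      (LinearMap.toSpanSingleton (K ⊗[k] B₁) G.N₁ s.1.2)) := h₁
  haveI : Module.Finite K (G.N₀₁ ⧸ LinearMap.range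
      (LinearMap.toSpanSingleton (K ⊗[k] B₀₁) G.N₀₁ (G.r₀ s.1.1))) := h₀₁
  obtain ⟨f₀, q₀⟩ := finrank_coker_mk_eq (K := K) (R := K ⊗[k] B₀) (M := G.N₀)
    (N := G'.N₀) s.1.1
  obtain ⟨f₁, q₁⟩ := finrank_coker_mk_eq (K := K) (R := K ⊗[k] B₁) (M := G.N₁)
    (N := G'.N₁) s.1.2
  obtain ⟨f₀₁, q₀₁⟩ := finrank_coker_mk_eq (K := K) (R := K ⊗[k] B₀₁) (M := G.N₀₁)
    (N := G'.N₀₁) (G.r₀ s.1.1)
  have Eτ := H565.D.euler_eq_of_injective hC (tensorSection G G' s) hτ f₀ f₁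
  have q₀' : Module.finrank K ((S25.H325.tensorGD G G').N₀ ⧸
      LinearMap.range (tensorSection G G' s).f₀) =
      Module.finrank K (G.N₀ ⧸ LinearMap.range (GDHom.ofSection G s).f₀) := q₀
  have q₁' : Module.finrank K ((S25.H325.tensorGD G G').N₁ ⧸
      LinearMap.range (tensorSection G G' s).f₁) =
      Module.finrank K (G.N₁ ⧸ LinearMap.range (GDHom.ofSection G s).f₁) := q₁
  have q₀₁' : Module.finrank K ((S25.H325.tensorGD G G').N₀₁ ⧸
      LinearMap.range (tensorSection G G' s).f₀₁) =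
      Module.finrank K (G.N₀₁ ⧸ LinearMap.range (GDHom.ofSection G s).f₀₁) := q₀₁
  rw [q₀', q₁', q₀₁'] at Eτ
  rw [Eτ, Eσ]
  ring

/-- Some twist of `G` has a nonzero section. -/
theorem exists_twistE_section (hC : IsCurveChart k B₀ B₁ B₀₁ x y e)
    {K : Type u} [Field K] [Algebra k K] (G : CurveGD k B₀ B₁ B₀₁ K) :
    ∃ (n : ℤ) (s : (twistE x y hC.mul_eq_one G n).H0), s ≠ 0 := by
  have hd : (0 : ℤ) < (chartDeg k y : ℤ) := by exact_mod_cast H250.chartDeg_pos hC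
  obtain ⟨n, hn⟩ : ∃ n : ℤ, 0 < G.euler + n * chartDeg k y := by
    refine ⟨|G.euler| + 1, ?_⟩
    have h1 : -|G.euler| ≤ G.euler := neg_abs_le _
    have h2 : (1 : ℤ) ≤ chartDeg k y := hd
    have h3 : 0 ≤ |G.euler| := abs_nonneg _
    nlinarith
  refine ⟨n, ?_⟩
  have hχ := H250.euler_twistE hC G n
  haveI := H250.finite_H0 hC (twistE x y hC.mul_eq_one G n)
  have hpos : 0 < Module.finrank K (twistE x y hC.mul_eq_one G n).H0 := by
    have : (twistE x y hC.mul_eq_one G n).euler ≤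
        Module.finrank K (twistE x y hC.mul_eq_one G n).H0 := by
      unfold GlueDatum.euler
      have := Int.natCast_nonneg (Module.finrank K (twistE x y hC.mul_eq_one G n).H1)
      omega
    omega
  exact Module.finrank_pos_iff_exists_ne_zero.mp hpos

/-- **DEG-ADD**: the degree of a tensor product of gluing data over a field is the sum of
the degrees. -/
theorem degree_tensorGD [IsAlgClosed k] (hC : IsCurveChart k B₀ B₁ B₀₁ x y e)
    {K : Type u} [Field K] [Algebra k K] (G₁ G₂ : CurveGD k B₀ B₁ B₀₁ K) :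
    (S25.H325.tensorGD G₁ G₂).degree = G₁.degree + G₂.degree := by
  obtain ⟨n, s, hs⟩ := exists_twistE_section hC G₁
  have h1 := euler_tensorGD_of_section hC (twistE x y hC.mul_eq_one G₁ n) G₂ s hs
  have h2 := H265.euler_eq_of_isIso (tensorGD_twistE_isIso hC.mul_eq_one G₁ G₂ n)
  have h3 := H250.euler_twistE hC (S25.H325.tensorGD G₁ G₂) n
  have h4 := H250.euler_twistE hC G₁ n
  unfold GlueDatum.degree
  rw [h2, h3, h4] at h1
  linarith

/-- The degree of the dual gluing datum is the opposite of the degree. -/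
theorem degree_dualGD [IsAlgClosed k] (hC : IsCurveChart k B₀ B₁ B₀₁ x y e)
    {K : Type u} [Field K] [Algebra k K] (G : CurveGD k B₀ B₁ B₀₁ K) :
    (S25.H325.dualGD G).degree = -G.degree := by
  have h1 := degree_tensorGD hC G (S25.H325.dualGD G)
  have h2 := H265.degree_eq_of_isIso (S25.H325.tensorGD_dual_right_isIso_unit G)
  have h3 : (GlueDatum.unit K (K ⊗[k] B₀) (K ⊗[k] B₁) (K ⊗[k] B₀₁)).degree = 0 :=
    H565.D.degree_unit K
  rw [h2, h3] at h1
  linarith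

end Curve

end

end Fermat.Agent.S27.H325
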