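/-
S27 / GRP, sub-leaf TENSOR-DEG (helper325): degree, `Deg0` and `Rigidifiable` are compatible
with tensor products of gluing data, in the language of `S27/Spec.lean` (`IsTensor`).

* `isIso_tensorGD_of_isTensor` : `IsTensor G G' G'' → (tensorGD G G').IsIso G''`;
* `degree_of_isTensor` (**DEG-ADD**) : over a field, `IsTensor G G' G''` gives
  `G''.degree = G.degree + G'.degree`;
* `deg0_tensorGD`, `deg0_dualGD`, `deg0_unit`, `deg0_of_isTensor`;
* `rigidifiable_tensorGD`, `rigidifiable_dualGD`, `rigidifiable_unit`,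
  `rigidifiable_of_isTensor`.
-/
import Fermat.Agent.S27.Spec
import Fermat.Agent.S27.H325.TensorDeg
import Fermat.Agent.S25.H265.GDCBaseChange
import Fermat.Agent.S25.H325.GDCBC

set_option autoImplicit false
set_option linter.style.haveILetI false
set_option linter.unusedSectionVars false

universe u

open scoped TensorProduct

namespace Fermat.Agent.S27.H325

open Fermat.Agent.S25 Fermat.Agent.S25.H10

noncomputable section

section General

variable {A R₀ R₁ R₀₁ : Type u} [CommRing A] [CommRing R₀] [CommRing R₁]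
    [CommRing R₀₁] [Algebra A R₀] [Algebra A R₁] [Algebra A R₀₁] [Algebra R₀ R₀₁]
    [Algebra R₁ R₀₁] [IsScalarTower A R₀ R₀₁] [IsScalarTower A R₁ R₀₁]

/-- The isomorphism `G ⊗ G' ≅ G''` defined by tensor maps. -/
def isoOfTensorMaps {G G' G'' : GlueDatum A R₀ R₁ R₀₁} (T : TensorMaps G G' G'') :
    GlueDatum.Iso (S25.H325.tensorGD G G') G'' where
  e₀ := LinearEquiv.ofBijective (TensorProduct.lift T.β₀) T.bijective₀
  e₁ := LinearEquiv.ofBijective (TensorProduct.lift T.β₁) T.bijective₁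
  e₀₁ := LinearEquiv.ofBijective (TensorProduct.lift T.β₀₁) T.bijective₀₁
  comm₀ := fun s => by
    show TensorProduct.lift T.β₀₁ (S25.H325.tensorRes (S := R₀₁) G.r₀ G'.r₀ s) =
      G''.r₀ (TensorProduct.lift T.β₀ s)
    induction s using TensorProduct.induction_on with
    | zero => simp
    | tmul a b =>
      rw [S25.H325.tensorRes_tmul, TensorProduct.lift.tmul, TensorProduct.lift.tmul, T.comm₀]
    | add a b ha hb => simp only [map_add, ha, hb]
  comm₁ := fun s => by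
    show TensorProduct.lift T.β₀₁ (S25.H325.tensorRes (S := R₀₁) G.r₁ G'.r₁ s) =
      G''.r₁ (TensorProduct.lift T.β₁ s)
    induction s using TensorProduct.induction_on with
    | zero => simp
    | tmul a b =>
      rw [S25.H325.tensorRes_tmul, TensorProduct.lift.tmul, TensorProduct.lift.tmul, T.comm₁]
    | add a b ha hb => simp only [map_add, ha, hb]

/-- A tensor product in the sense of `IsTensor` is isomorphic to `tensorGD`. -/
theorem isIso_tensorGD_of_isTensor {G G' G'' : GlueDatum A R₀ R₁ R₀₁}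
    (h : IsTensor G G' G'') : (S25.H325.tensorGD G G').IsIso G'' := by
  obtain ⟨T⟩ := h
  exact ⟨isoOfTensorMaps T⟩

end General

section Curve

variable {k : Type u} [Field k] {B₀ B₁ B₀₁ : Type u} [CommRing B₀] [CommRing B₁] [CommRing B₀₁]
  [Algebra k B₀] [Algebra k B₁] [Algebra k B₀₁] [Algebra B₀ B₀₁] [Algebra B₁ B₀₁]
  [IsScalarTower k B₀ B₀₁] [IsScalarTower k B₁ B₀₁]
  {x : B₀} {y : B₁} {e : B₁ →ₐ[k] k}

/-- **DEG-ADD**: over a field, the degree of a tensor product is the sum of the degrees. -/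
theorem degree_of_isTensor [IsAlgClosed k] (hC : IsCurveChart k B₀ B₁ B₀₁ x y e)
    {K : Type u} [Field K] [Algebra k K] {G G' G'' : CurveGD k B₀ B₁ B₀₁ K}
    (h : IsTensor G G' G'') : G''.degree = G.degree + G'.degree := by
  rw [← degree_tensorGD hC G G']
  exact (H265.degree_eq_of_isIso (isIso_tensorGD_of_isTensor h)).symm

variable {A : Type u} [CommRing A] [Algebra k A]

/-! ### `Deg0` -/

theorem deg0_unit :
    CurveGD.Deg0 (GlueDatum.unit A (A ⊗[k] B₀) (A ⊗[k] B₁) (A ⊗[k] B₀₁) :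
      CurveGD k B₀ B₁ B₀₁ A) := by
  intro K _ _ φ G' hbc
  have h := H265.curveGD_isIso_of_isBC hbc
    (S25.H325.curveGD_isBC_unit (B₀ := B₀) (B₁ := B₁) (B₀₁ := B₀₁) φ)
  rw [H265.degree_eq_of_isIso h]
  exact H565.D.degree_unit K

theorem deg0_tensorGD [IsAlgClosed k] (hC : IsCurveChart k B₀ B₁ B₀₁ x y e)
    {G G' : CurveGD k B₀ B₁ B₀₁ A} (h : G.Deg0) (h' : G'.Deg0) :
    CurveGD.Deg0 (S25.H325.tensorGD G G' : CurveGD k B₀ B₁ B₀₁ A) := by
  intro K _ _ φ G'' hbc
  obtain ⟨H, hH⟩ := H265.curveGD_exists_isBC φ G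
  obtain ⟨H', hH'⟩ := H265.curveGD_exists_isBC φ G'
  have hi := H265.curveGD_isIso_of_isBC hbc (S25.H325.curveGD_isBC_tensorGD φ hH hH')
  rw [H265.degree_eq_of_isIso hi, degree_tensorGD hC H H', h K φ H hH, h' K φ H' hH',
    add_zero]

theorem deg0_dualGD [IsAlgClosed k] (hC : IsCurveChart k B₀ B₁ B₀₁ x y e)
    {G : CurveGD k B₀ B₁ B₀₁ A} (h : G.Deg0) :
    CurveGD.Deg0 (S25.H325.dualGD G : CurveGD k B₀ B₁ B₀₁ A) := by
  intro K _ _ φ G'' hbc
  obtain ⟨H, hH⟩ := H265.curveGD_exists_isBC φ G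
  have hi := H265.curveGD_isIso_of_isBC hbc (S25.H325.curveGD_isBC_dualGD φ hH)
  rw [H265.degree_eq_of_isIso hi, degree_dualGD hC H, h K φ H hH, neg_zero]

theorem deg0_of_isTensor [IsAlgClosed k] (hC : IsCurveChart k B₀ B₁ B₀₁ x y e)
    {G G' G'' : CurveGD k B₀ B₁ B₀₁ A} (hT : IsTensor G G' G'') (h : G.Deg0) (h' : G'.Deg0) :
    G''.Deg0 :=
  H265.deg0_of_isIso (isIso_tensorGD_of_isTensor hT) (deg0_tensorGD hC h h')

/-! ### `Rigidifiable` -/

theorem rigidifiable_unit (e : B₁ →ₐ[k] k) :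
    CurveGD.Rigidifiable e (GlueDatum.unit A (A ⊗[k] B₀) (A ⊗[k] B₁) (A ⊗[k] B₀₁) :
      CurveGD k B₀ B₁ B₀₁ A) :=
  ⟨(epsHom e A).toRingHom.toSemilinearMap,
    S25.H325.isSemilinearBaseChange_ringHom (epsHom e A).toRingHom⟩

theorem rigidifiable_tensorGD (e : B₁ →ₐ[k] k) {G G' : CurveGD k B₀ B₁ B₀₁ A}
    (h : G.Rigidifiable e) (h' : G'.Rigidifiable e) :
    CurveGD.Rigidifiable e (S25.H325.tensorGD G G' : CurveGD k B₀ B₁ B₀₁ A) := by
  obtain ⟨b, hb⟩ := h
  obtain ⟨b', hb'⟩ := h'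
  refine ⟨(TensorProduct.lid A A).toLinearMap.comp
    (S25.H325.semiTensor (epsHom e A).toRingHom b b'), ?_⟩
  exact H371.isSemilinearBaseChange_equiv_comp (epsHom e A).toRingHom
    (S25.H325.semiTensor (epsHom e A).toRingHom b b') (TensorProduct.lid A A) _
    (fun _ => rfl) (S25.H325.isSemilinearBaseChange_semiTensor _ hb hb')

theorem rigidifiable_dualGD (e : B₁ →ₐ[k] k) {G : CurveGD k B₀ B₁ B₀₁ A}
    (h : G.Rigidifiable e) :
    CurveGD.Rigidifiable e (S25.H325.dualGD G : CurveGD k B₀ B₁ B₀₁ A) := by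
  obtain ⟨b, hb⟩ := h
  haveI := G.invertible₁
  refine ⟨(LinearMap.ringLmapEquivSelf A A A).toLinearMap.comp
    (S25.H325.semiHom (epsHom e A).toRingHom hb (epsHom e A).toRingHom.toSemilinearMap), ?_⟩
  exact H371.isSemilinearBaseChange_equiv_comp (epsHom e A).toRingHom
    (S25.H325.semiHom (epsHom e A).toRingHom hb (epsHom e A).toRingHom.toSemilinearMap)
    (LinearMap.ringLmapEquivSelf A A A) _
    (fun _ => rfl) (S25.H325.isSemilinearBaseChange_semiHom _ hb
      (S25.H325.isSemilinearBaseChange_ringHom _))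

theorem rigidifiable_of_isTensor (e : B₁ →ₐ[k] k) {G G' G'' : CurveGD k B₀ B₁ B₀₁ A}
    (hT : IsTensor G G' G'') (h : G.Rigidifiable e) (h' : G'.Rigidifiable e) :
    G''.Rigidifiable e :=
  H265.rigidifiable_of_isIso (isIso_tensorGD_of_isTensor hT) (rigidifiable_tensorGD e h h')

end Curve

end

end Fermat.Agent.S27.H325
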