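/-
S27 / GRP, block G-ALG closed (helper325): all pure-algebra leaves of `Grp/Spec.lean`, in
the exact frozen shapes, bundled as `algLeaves : Grp.AlgLeaves k`.

Inputs: `H323.Tensor` (helper323: `IsTensor ↔ IsIso tensorGD`, congr, unique, comm, assoc,
unit, dual, base change) and `H325.TensorDegFam` (degree, rigidifiability).
-/
import Fermat.Agent.S27.Grp.Spec
import Fermat.Agent.S27.H323.Tensor
import Fermat.Agent.S27.H325.TensorDegFam

set_option autoImplicit false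
set_option linter.unusedSectionVars false

universe u

open scoped TensorProduct

namespace Fermat.Agent.S27.H325

open Fermat.Agent.S25 Fermat.Agent.S27

section Cancel

variable {k : Type u} [Field k] {B₀ B₁ B₀₁ : Type u} [CommRing B₀] [CommRing B₁] [CommRing B₀₁]
  [Algebra k B₀] [Algebra k B₁] [Algebra k B₀₁] [Algebra B₀ B₀₁] [Algebra B₁ B₀₁]
  [IsScalarTower k B₀ B₀₁] [IsScalarTower k B₁ B₀₁]
  {A : Type u} [CommRing A] [Algebra k A]

/-- If `G ⊗ G'` and `G'` are rigidifiable, so is `G`. -/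
theorem rigidifiable_cancel (e : B₁ →ₐ[k] k) {G G' G'' : CurveGD k B₀ B₁ B₀₁ A}
    (hT : IsTensor G G' G'') (h' : G'.Rigidifiable e) (h'' : G''.Rigidifiable e) :
    G.Rigidifiable e := by
  -- `G ≅ G ⊗ (G' ⊗ G'^∨) ≅ (G ⊗ G') ⊗ G'^∨ ≅ G'' ⊗ G'^∨`
  have hd : CurveGD.Rigidifiable e (S25.H325.dualGD G' : CurveGD k B₀ B₁ B₀₁ A) :=
    rigidifiable_dualGD e h'
  have hr : CurveGD.Rigidifiable e
      (S25.H325.tensorGD G'' (S25.H325.dualGD G') : CurveGD k B₀ B₁ B₀₁ A) :=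
    rigidifiable_tensorGD e h'' hd
  have h1 : IsTensor G'' (S25.H325.dualGD G') (S25.H325.tensorGD G'' (S25.H325.dualGD G')) :=
    H323.isTensor_tensorGD_h323 _ _
  have h2 : IsTensor G' (S25.H325.dualGD G')
      (GlueDatum.unit A (A ⊗[k] B₀) (A ⊗[k] B₁) (A ⊗[k] B₀₁)) :=
    H323.isTensor_dual_right_h323 G'
  have h3 : IsTensor G (GlueDatum.unit A (A ⊗[k] B₀) (A ⊗[k] B₁) (A ⊗[k] B₀₁)) G :=
    H323.isTensor_unit_right_h323 G
  have hi : GlueDatum.IsIso (S25.H325.tensorGD G'' (S25.H325.dualGD G')) G :=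
    H323.isTensor_assoc_h323 hT h1 h2 h3
  exact H265.rigidifiable_of_isIso hi hr

end Cancel

/-- **G-ALG**: all pure-algebra leaves of block GRP. -/
theorem algLeaves (k : Type u) [Field k] : Grp.AlgLeaves k where
  tensorExists := H323.tensorExists
  tensIso := fun _ _ _ _ _ _ _ _ _ _ _ _ _ _ _ _ _ _ _ _ _ h e e' e'' =>
    H323.isTensor_congr_h323 h e e' e''
  tensUnique := fun _ _ _ _ _ _ _ _ _ _ _ _ _ _ _ _ _ _ _ h₁ h₂ =>
    H323.isTensor_unique_h323 h₁ h₂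
  tensComm := fun _ _ _ _ _ _ _ _ _ _ _ _ _ _ _ _ _ _ h => H323.isTensor_comm_h323 h
  tensAssoc := fun _ _ _ _ _ _ _ _ _ _ _ _ _ _ _ _ _ _ _ _ _ _ h₁ h₂ h₃ h₄ =>
    H323.isTensor_assoc_h323 h₁ h₂ h₃ h₄
  tensUnit := fun _ _ _ _ _ _ _ _ _ _ _ _ _ _ _ G => H323.isTensor_unit_left_h323 G
  tensInv := fun _ _ _ _ _ _ _ _ _ _ _ _ _ _ _ G => H323.exists_isTensor_unit_left_h323 G
  tensBC := fun _ _ _ _ _ _ _ _ _ _ _ _ _ _ _ _ _ _ _ φ _ _ _ _ _ _ h h₁ h₂ h₃ =>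
    H323.isTensor_curveGD_isBC_h323 φ h h₁ h₂ h₃
  tensRig := fun _ _ _ _ _ _ _ _ _ _ _ _ _ e _ _ _ _ _ _ hT h h' =>
    rigidifiable_of_isTensor e hT h h'
  tensRigCancel := fun _ _ _ _ _ _ _ _ _ _ _ _ _ e _ _ _ _ _ _ hT h' h'' =>
    rigidifiable_cancel e hT h' h''
  degAdd := by
    intro _ B₀ B₁ B₀₁ _ _ _ _ _ _ _ _ _ _ x y e hC K _ _ _ G G' G'' hT
    exact degree_of_isTensor hC hT

end Fermat.Agent.S27.H325
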